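import Mathlib
import Fermat.Agent.LT.H556.A0
import Fermat.Agent.LT.T1.Spec
import Fermat.Agent.LT.T2.Spec
import Fermat.Agent.LT.T2.SpecTau
import Fermat.Agent.LT.T2.H386.GPSSpec
import Fermat.Agent.LT.T2.H767.LocalL2Spec

/-!
# Row LT, tower T2, leaf T2.23 = `LeafT03` (`GPSCoreT`, class of T5), owner helper465: THE CUT

OFF-MAIN.  Definitions, frozen sub-leaf Props and PROVED tops.  No hole, nothing assumed.
Typed against byte-identical copies of `LT/H556/A0.lean` (66d3374a), `LT/T1/Spec.lean`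
(e8ae48d6), `LT/T2/Spec.lean` v3 (b934629a), `LT/T2/SpecTau.lean` (4d2b0fc2),
`LT/T2/H386/GPSSpec.lean` (fb5aa9e8), `LT/T2/H767/LocalL2Spec.lean` (50e6aa79).

## The point

The elementary route of helper386 to `GPSCore` (finite differences of the test function along
the conjugates `x⁻¹ n(v) x`, no Poisson summation) and the route of helper767 to `LocalL2`
(Cauchy--Schwarz and THE COUNT `H767.CountC`) use of the class of functions ONLY

* for the test function `f`: continuity, smoothness at infinity, compact support, left and right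
  invariance under `U(𝔫)`  (`IsTestCore`; NO condition on `K_∞`);
* for the automorphic function `ψ`: continuity, boundedness, left invariance under `GL₂(K)`
  (`IsAutCore`; NO level, NO `K_∞`-type), and for `LocalL2` the invariance under ONE central
  element `r` with `‖det r‖ = 2` (`T2.IsRayGen`).

So the SAME three proofs give the estimate in the class of A0 (`T2.GPSCore`) and in the class of
T5 (`T2.GPSCoreT`).  This file states the three sub-leaves in the CORE form and proves: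

* `fdBound_of_core : FDBoundCore K 𝔫 → H386.FDBound K 𝔫`,
* `kernelEst_of_core : KernelEstCore K 𝔫 → H386.KernelEst K 𝔫`,
* `gpsCoreT_of_core : KernelEstCore K 𝔫 → LocalL2Core K → T2.GPSCoreT K 𝔫 τ`,
* `gpsCore_of_core : T2.LeafT14 K → KernelEstCore K 𝔫 → LocalL2Core K → T2.GPSCore K 𝔫`,
* `leafT03_of_core : LeafFDCore K → LeafSoft1Core K → H767.LeafCount K → LeafIntCore K →
    T2.LeafT03 K`   (THE TOP of T2.23),
* `leaf03_of_core` (the same leaves give `T2.Leaf03`, with `T2.LeafT14`).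

`H767.CountC` is independent of the class and is used as it is.
-/

set_option autoImplicit false

open IsDedekindDomain NumberField MeasureTheory
open Fermat.Agent.LT.H556.A0

noncomputable section

namespace Fermat.Agent.LT.T2.H465

open Fermat.Agent.LT.T2

attribute [local instance] Fermat.Agent.LT.T2.borelG

variable {K : Type} [Field K] [NumberField K]

/-! ## 1. The core classes -/

/-- The hypotheses on a test function which the estimate uses: no condition at `K_∞`. -/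
structure IsTestCore (𝔫 : Ideal (𝓞 K)) (f : G K → ℂ) : Prop where
  cont : Continuous f
  smooth : IsSmoothAtInf f
  cpt : HasCompactSupport f
  level_right : ∀ u : G K, InLevelGroup 𝔫 u → ∀ g : G K, f (g * u) = f g
  level_left : ∀ u : G K, InLevelGroup 𝔫 u → ∀ g : G K, f (u * g) = f g

/-- The hypotheses on an automorphic function which the estimate uses: no level, no `K_∞`-type,
no invariance under scalars. -/
structure IsAutCore (ψ : G K → ℂ) : Prop where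
  cont : Continuous ψ
  bdd : ∃ C : ℝ, ∀ g : G K, ‖ψ g‖ ≤ C
  left_inv : ∀ (γ : GL (Fin 2) K) (g : G K),
    ψ (Matrix.GeneralLinearGroup.map (algebraMap K (Adl K)) γ * g) = ψ g

theorem isTestCore_of_isTestFn {𝔫 : Ideal (𝓞 K)} {f : G K → ℂ} (h : IsTestFn 𝔫 f) :
    IsTestCore 𝔫 f :=
  ⟨h.cont, h.smooth, h.cpt, h.level_right, h.level_left⟩

theorem isTestCore_of_isTestT {𝔫 : Ideal (𝓞 K)} {τ : G K → ℂ} {f : G K → ℂ}
    (h : IsTestT 𝔫 τ f) : IsTestCore 𝔫 f :=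
  ⟨h.cont, h.smooth, h.cpt, h.level_right, h.level_left⟩

theorem isAutCore_of_isAutFn {𝔫 : Ideal (𝓞 K)} {ψ : G K → ℂ} (h : IsAutFn 𝔫 ψ) :
    IsAutCore ψ :=
  ⟨h.cont, h.bdd, h.left_inv⟩

theorem isAutCore_of_isAutT {𝔫 : Ideal (𝓞 K)} {τ : G K → ℂ} {r : G K} {ψ : G K → ℂ}
    (h : IsAutT 𝔫 τ r ψ) : IsAutCore ψ :=
  ⟨h.cont, h.bdd, h.left_inv⟩

/-! ## 2. The three Props in the core form -/

/-- `H386.FDBound` for the core class of test functions (same statement, fewer hypotheses on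
`f`). -/
def FDBoundCore (K : Type) [Field K] [NumberField K] (𝔫 : Ideal (𝓞 K)) : Prop :=
  ∀ f : G K → ℂ, IsTestCore 𝔫 f → ∀ 𝒟 : Set (Adl K), IsCompact 𝒟 → ∀ N : ℕ,
    ∃ (C c : ℝ) (M : ℕ) (W : Set (G K)), 0 ≤ C ∧ 0 < c ∧ IsCompact W ∧
      ∀ (x : G K) (t : ℝ), T1.HasHeight K x t → c ≤ t →
        ∃ (β : GL (Fin 2) K) (x' : G K), T1.IsUpperRat K β ∧ x = T1.ratG K β * x' ∧
          (∀ v ∈ 𝒟, H386.conjUnip386 x' v ∈ W) ∧
          ∀ vs : List (Adl K), vs.length = M → (∀ v ∈ vs, v ∈ 𝒟) →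
            ∀ h : G K, ‖H386.fdiff386 x' vs f h‖ * t ^ N ≤ C

/-- `H386.KernelEst` for the core classes. -/
def KernelEstCore (K : Type) [Field K] [NumberField K] (𝔫 : Ideal (𝓞 K)) : Prop :=
  ∀ (F : Frame K) (f : G K → ℂ), IsTestCore 𝔫 f → ∀ N : ℕ,
    ∃ (C c : ℝ) (Ω : Set (G K)), 0 ≤ C ∧ 0 < c ∧ IsCompact Ω ∧
      ∀ ψ Ψ : G K → ℂ, IsAutCore ψ → IsConstTerm ψ Ψ →
        ∀ (x : G K) (t : ℝ), T1.HasHeight K x t → c ≤ t →
          ‖conv F f ψ x - conv F f Ψ x‖ * t ^ N ≤ C * ∫ h in Ω, ‖ψ (x * h)‖ ∂F.μ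

/-- `H386.LocalL2` for the core class: `ψ` continuous, bounded, left `GL₂(K)`-invariant and
invariant under the ray generator of the frame. -/
def LocalL2Core (K : Type) [Field K] [NumberField K] : Prop :=
  ∀ (R : FrameR K) (Ω : Set (G K)), IsCompact Ω →
    ∃ C c : ℝ, 0 < c ∧ ∀ ψ : G K → ℂ, IsAutCore ψ → (∀ g : G K, ψ (g * R.r) = ψ g) →
      ∀ (x : G K) (t : ℝ), T1.HasHeight K x t → c ≤ t →
        ∫ h in Ω, ‖ψ (x * h)‖ ∂(R.F.μ) ≤ C * t * Real.sqrt (nsq R.F ψ)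

/-! ## 3. PROVED: the core forms give the forms of the two classes -/

theorem fdBound_of_core {𝔫 : Ideal (𝓞 K)} (h : FDBoundCore K 𝔫) : H386.FDBound K 𝔫 :=
  fun f hf => h f (isTestCore_of_isTestFn hf)

theorem kernelEst_of_core {𝔫 : Ideal (𝓞 K)} (h : KernelEstCore K 𝔫) : H386.KernelEst K 𝔫 := by
  intro F f hf N
  obtain ⟨C, c, Ω, hC, hc, hΩ, hK⟩ := h F f (isTestCore_of_isTestFn hf) N
  exact ⟨C, c, Ω, hC, hc, hΩ, fun ψ Ψ hψ hΨ => hK ψ Ψ (isAutCore_of_isAutFn hψ) hΨ⟩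

/-- The estimate for the core classes. -/
def GPSCoreCore (K : Type) [Field K] [NumberField K] (𝔫 : Ideal (𝓞 K)) : Prop :=
  ∀ (R : FrameR K) (f : G K → ℂ), IsTestCore 𝔫 f → ∀ N : ℕ,
    ∃ C c : ℝ, 0 < c ∧ ∀ ψ Ψ : G K → ℂ, IsAutCore ψ → (∀ g : G K, ψ (g * R.r) = ψ g) →
      IsConstTerm ψ Ψ →
      ∀ (x : G K) (t : ℝ), T1.HasHeight K x t → c ≤ t →
        ‖conv R.F f ψ x - conv R.F f Ψ x‖ * t ^ N ≤ C * Real.sqrt (nsq R.F ψ)

/-- TOP of the first cut, core form (the computation of `H386.gpsCore_of_kernel_local`). -/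
theorem gpsCoreCore_of_core {𝔫 : Ideal (𝓞 K)} (h1 : KernelEstCore K 𝔫) (h2 : LocalL2Core K) :
    GPSCoreCore K 𝔫 := by
  intro R f hf N
  obtain ⟨C₁, c₁, Ω, hC₁, hc₁, hΩ, hK⟩ := h1 R.F f hf (N + 1)
  obtain ⟨C₂, c₂, hc₂, hL⟩ := h2 R Ω hΩ
  refine ⟨C₁ * C₂, max c₁ c₂, lt_max_of_lt_left hc₁, ?_⟩
  intro ψ Ψ hψ hr hΨ x t hx ht
  have ht₁ : c₁ ≤ t := le_trans (le_max_left _ _) ht
  have ht₂ : c₂ ≤ t := le_trans (le_max_right _ _) ht
  have htpos : 0 < t := lt_of_lt_of_le hc₁ ht₁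
  have hA := hK ψ Ψ hψ hΨ x t hx ht₁
  have hB := hL ψ hψ hr x t hx ht₂
  have hC : ‖conv R.F f ψ x - conv R.F f Ψ x‖ * t ^ (N + 1)
      ≤ C₁ * (C₂ * t * Real.sqrt (nsq R.F ψ)) :=
    le_trans hA (mul_le_mul_of_nonneg_left hB hC₁)
  have hD : (‖conv R.F f ψ x - conv R.F f Ψ x‖ * t ^ N) * t
      ≤ (C₁ * C₂ * Real.sqrt (nsq R.F ψ)) * t := by
    calc (‖conv R.F f ψ x - conv R.F f Ψ x‖ * t ^ N) * t
        = ‖conv R.F f ψ x - conv R.F f Ψ x‖ * t ^ (N + 1) := by ring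
      _ ≤ C₁ * (C₂ * t * Real.sqrt (nsq R.F ψ)) := hC
      _ = (C₁ * C₂ * Real.sqrt (nsq R.F ψ)) * t := by ring
  exact le_of_mul_le_mul_right hD htpos

/-- The estimate in the class of T5. -/
theorem gpsCoreT_of_gpsCoreCore {𝔫 : Ideal (𝓞 K)} (τ : G K → ℂ) (h : GPSCoreCore K 𝔫) :
    GPSCoreT K 𝔫 τ := by
  intro R f hf N
  obtain ⟨C, c, hc, hE⟩ := h R f (isTestCore_of_isTestT hf) N
  exact ⟨C, c, hc, fun ψ Ψ hψ hΨ => hE ψ Ψ (isAutCore_of_isAutT hψ) hψ.ray hΨ⟩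

theorem gpsCoreT_of_core {𝔫 : Ideal (𝓞 K)} (τ : G K → ℂ) (h1 : KernelEstCore K 𝔫)
    (h2 : LocalL2Core K) : GPSCoreT K 𝔫 τ :=
  gpsCoreT_of_gpsCoreCore τ (gpsCoreCore_of_core h1 h2)

/-- The estimate in the class of A0 (`T2.LeafT14`: a ray generator exists and the functions of
the class of A0 are invariant under it). -/
theorem gpsCore_of_gpsCoreCore (h14 : LeafT14 K) {𝔫 : Ideal (𝓞 K)} (h : GPSCoreCore K 𝔫) :
    GPSCore K 𝔫 := by
  intro F f hf N
  obtain ⟨r, hr⟩ := h14.1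
  obtain ⟨C, c, hc, hE⟩ := h ⟨F, r, hr⟩ f (isTestCore_of_isTestFn hf) N
  refine ⟨C, c, hc, fun ψ Ψ hψ hΨ => hE ψ Ψ (isAutCore_of_isAutFn hψ) ?_ hΨ⟩
  intro g
  exact h14.2 ψ hψ.arch_scalar r hr g

theorem gpsCore_of_core (h14 : LeafT14 K) {𝔫 : Ideal (𝓞 K)} (h1 : KernelEstCore K 𝔫)
    (h2 : LocalL2Core K) : GPSCore K 𝔫 :=
  gpsCore_of_gpsCoreCore h14 (gpsCoreCore_of_core h1 h2)

/-- `H386.LocalL2` (class of A0) from the core form. -/
theorem localL2_of_core (h14 : LeafT14 K) {𝔫 : Ideal (𝓞 K)} (h : LocalL2Core K) :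
    H386.LocalL2 K 𝔫 := by
  intro F Ω hΩ
  obtain ⟨r, hr⟩ := h14.1
  obtain ⟨C, c, hc, hE⟩ := h ⟨F, r, hr⟩ Ω hΩ
  refine ⟨C, c, hc, fun ψ hψ => hE ψ (isAutCore_of_isAutFn hψ) ?_⟩
  intro g
  exact h14.2 ψ hψ.arch_scalar r hr g

/-! ## 4. The sub-leaves of T2.23 -/

/-- **T2.23a** = T2.03a in the core form: THE ANALYTIC CORE.  The proof of `H386.LeafFD`
(helper386 memo, steps (i) - (iv)) uses of `IsTestFn` the fields `cont`, `smooth`, `cpt`,
`level_right`, `level_left` only. -/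
def LeafFDCore (K : Type) [Field K] [NumberField K] : Prop :=
  T1.T1Out K → ∀ 𝔫 : Ideal (𝓞 K), 𝔫 ≠ ⊥ → FDBoundCore K 𝔫

/-- **T2.23b** = T2.03b in the core form: the proof of `H386.LeafSoft1` uses of `IsAutFn` the
fields `cont`, `bdd`, `left_inv` only (upper triangular `γ`). -/
def LeafSoft1Core (K : Type) [Field K] [NumberField K] : Prop :=
  T1.T1Out K → ∀ 𝔫 : Ideal (𝓞 K), 𝔫 ≠ ⊥ → FDBoundCore K 𝔫 → KernelEstCore K 𝔫

/-- **T2.23c** INTEGRATION in the core form: THE COUNT gives the local `L²` bound for the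
functions invariant under the ray generator (tiling of `GL₂(𝔸_K)` by the translates
`γ⁻¹ D r^j` of the fundamental domain of the frame).  OWNER helper465. -/
def LeafIntCore (K : Type) [Field K] [NumberField K] : Prop :=
  T1.T1Out K → H767.CountC K → LocalL2Core K

/-- **THE TOP of T2.23**: `T2.LeafT03` from the core leaves and THE COUNT. -/
theorem leafT03_of_core (hFD : LeafFDCore K) (hS : LeafSoft1Core K) (hCount : H767.LeafCount K)
    (hInt : LeafIntCore K) : LeafT03 K := by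
  intro hT1 𝔫 τ h𝔫 _
  exact gpsCoreT_of_core τ (hS hT1 𝔫 h𝔫 (hFD hT1 𝔫 h𝔫)) (hInt hT1 (hCount hT1))

/-- The same leaves give T2.03 (class of A0), with `T2.LeafT14`. -/
theorem leaf03_of_core (h14 : LeafT14 K) (hFD : LeafFDCore K) (hS : LeafSoft1Core K)
    (hCount : H767.LeafCount K) (hInt : LeafIntCore K) : Leaf03 K := by
  intro hT1 𝔫 h𝔫
  exact gpsCore_of_core h14 (hS hT1 𝔫 h𝔫 (hFD hT1 𝔫 h𝔫)) (hInt hT1 (hCount hT1))

/-- The leaves of helper386 and helper767 follow from the core leaves. -/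
theorem leafFD_of_core (h : LeafFDCore K) : H386.LeafFD K :=
  fun hT1 𝔫 h𝔫 => fdBound_of_core (h hT1 𝔫 h𝔫)

theorem leafLocalL2_of_core (h14 : LeafT14 K) (hCount : H767.LeafCount K)
    (hInt : LeafIntCore K) : H386.LeafLocalL2 K :=
  fun hT1 _ _ => localL2_of_core h14 (hInt hT1 (hCount hT1))

end Fermat.Agent.LT.T2.H465

end
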