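import Mathlib

/-!
# Row LT, tower T2, leaf T2.23c (`LeafIntCore`), part 3: Cauchy--Schwarz on a set of finite
measure (helper465)

OFF-MAIN.  Mathlib only.
-/

set_option autoImplicit false

open MeasureTheory
open scoped ENNReal

noncomputable section

namespace Fermat.Agent.LT.T2.H465

/-- Cauchy--Schwarz: `∫_Ω ‖f‖ ≤ √Q · √μ(Ω)` if `∫_Ω ‖f‖² ≤ Q` and `μ(Ω) < ∞`. -/
theorem integral_norm_le_sqrt465 {α : Type*} [MeasurableSpace α] (μ : Measure α) (Ω : Set α)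
    (hΩ : μ Ω ≠ ⊤) {f : α → ℂ} (hf : AEStronglyMeasurable f (μ.restrict Ω)) (Q : ℝ) (hQ : 0 ≤ Q)
    (h : ∫⁻ a in Ω, ‖f a‖ₑ ^ (2 : ℝ) ∂μ ≤ ENNReal.ofReal Q) :
    ∫ a in Ω, ‖f a‖ ∂μ ≤ Real.sqrt Q * Real.sqrt (μ Ω).toReal := by
  rw [integral_norm_eq_lintegral_enorm hf]
  have H := ENNReal.lintegral_mul_le_Lp_mul_Lq (μ.restrict Ω) Real.HolderConjugate.two_two
    (f := fun a => ‖f a‖ₑ) (g := fun _ => (1 : ℝ≥0∞)) hf.enorm aemeasurable_const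
  have H' : (∫⁻ a in Ω, ‖f a‖ₑ ∂μ)
      ≤ (∫⁻ a in Ω, ‖f a‖ₑ ^ (2 : ℝ) ∂μ) ^ (1 / (2 : ℝ)) * (μ Ω) ^ (1 / (2 : ℝ)) := by
    simpa using H
  have H2 : ∫⁻ a in Ω, ‖f a‖ₑ ∂μ
      ≤ ENNReal.ofReal (Real.sqrt Q * Real.sqrt (μ Ω).toReal) := by
    refine H'.trans ?_
    rw [ENNReal.ofReal_mul (Real.sqrt_nonneg _)]
    refine mul_le_mul' ?_ ?_
    · calc (∫⁻ a in Ω, ‖f a‖ₑ ^ (2 : ℝ) ∂μ) ^ (1 / (2 : ℝ))
          ≤ (ENNReal.ofReal Q) ^ (1 / (2 : ℝ)) :=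
            ENNReal.rpow_le_rpow h (by norm_num)
        _ = ENNReal.ofReal (Real.sqrt Q) := by
            rw [Real.sqrt_eq_rpow, ENNReal.ofReal_rpow_of_nonneg hQ (by norm_num)]
    · rw [Real.sqrt_eq_rpow, ← ENNReal.ofReal_rpow_of_nonneg ENNReal.toReal_nonneg
        (by norm_num), ENNReal.ofReal_toReal hΩ]
  exact ENNReal.toReal_le_of_le_ofReal (mul_nonneg (Real.sqrt_nonneg _) (Real.sqrt_nonneg _)) H2

end Fermat.Agent.LT.T2.H465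

end
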