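import Mathlib
import Fermat.Agent.LT.T2.SpecTau
import Fermat.Agent.LT.T2.H245.Leaf01

/-!
# Row LT, tower T2, leaf T2.23c (`LeafIntCore`), part 2: the ray generator (helper465)

OFF-MAIN.  A ray generator `r` (`T2.IsRayGen`) is a scalar matrix, hence central, and
`‖det r‖_𝔸 = 2`; the translates `slab · r^j` cover `GL₂(𝔸_K)`.
-/

set_option autoImplicit false

open IsDedekindDomain NumberField MeasureTheory
open Fermat.Agent.LT.H556.A0

noncomputable section

namespace Fermat.Agent.LT.T2.H465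

open Fermat.Agent.LT.T2

variable {K : Type} [Field K] [NumberField K]

theorem adl_ext465 {x y : Adl K} (h1 : ∀ w : InfinitePlace K, x.1 w = y.1 w)
    (h2 : ∀ v : HeightOneSpectrum (𝓞 K), x.2 v = y.2 v) : x = y := by
  refine Prod.ext (funext h1) ?_
  exact RestrictedProduct.ext _ _ h2

/-- The infinite components of the entries of a ray generator. -/
theorem rayGen_inf465 {r : G K} {t : ℝ}
    (ht : ∀ w : InfinitePlace K, infComp w r = Matrix.diagonal (fun _ => (t : ℂ)))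
    (w : InfinitePlace K) (i j : Fin 2) :
    InfinitePlace.Completion.extensionEmbedding w
      (((r : Matrix (Fin 2) (Fin 2) (Adl K)) i j).1 w) = if i = j then (t : ℂ) else 0 := by
  have h := congrFun (congrFun (ht w) i) j
  rw [Matrix.diagonal_apply] at h
  exact h

/-- The finite components of the entries of a ray generator. -/
theorem rayGen_fin465 {r : G K} (hr : IsRayGen r) (v : HeightOneSpectrum (𝓞 K)) (i j : Fin 2) :
    ((r : Matrix (Fin 2) (Fin 2) (Adl K)) i j).2 v = if i = j then 1 else 0 := by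
  have h := congrFun (congrFun (hr.1 v) i) j
  rw [Matrix.one_apply] at h
  exact h

/-- A ray generator is a scalar matrix. -/
theorem rayGen_entries465 {r : G K} (hr : IsRayGen r) :
    (r : Matrix (Fin 2) (Fin 2) (Adl K)) 0 1 = 0 ∧ (r : Matrix (Fin 2) (Fin 2) (Adl K)) 1 0 = 0 ∧
      (r : Matrix (Fin 2) (Fin 2) (Adl K)) 0 0 = (r : Matrix (Fin 2) (Fin 2) (Adl K)) 1 1 := by
  obtain ⟨t, -, -, ht⟩ := hr.2
  refine ⟨adl_ext465 (fun w => ?_) (fun v => ?_), adl_ext465 (fun w => ?_) (fun v => ?_),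
    adl_ext465 (fun w => ?_) (fun v => ?_)⟩
  · apply (InfinitePlace.Completion.extensionEmbedding w).injective
    rw [rayGen_inf465 ht w 0 1, if_neg (by decide)]
    exact (map_zero _).symm
  · rw [rayGen_fin465 hr v 0 1, if_neg (by decide)]
    rfl
  · apply (InfinitePlace.Completion.extensionEmbedding w).injective
    rw [rayGen_inf465 ht w 1 0, if_neg (by decide)]
    exact (map_zero _).symm
  · rw [rayGen_fin465 hr v 1 0, if_neg (by decide)]
    rfl
  · apply (InfinitePlace.Completion.extensionEmbedding w).injective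
    rw [rayGen_inf465 ht w 0 0, rayGen_inf465 ht w 1 1, if_pos rfl, if_pos rfl]
  · rw [rayGen_fin465 hr v 0 0, rayGen_fin465 hr v 1 1, if_pos rfl, if_pos rfl]

/-- A ray generator is central. -/
theorem rayGen_comm465 {r : G K} (hr : IsRayGen r) (g : G K) : g * r = r * g := by
  obtain ⟨h01, h10, h00⟩ := rayGen_entries465 hr
  apply Units.ext
  ext i j
  rw [Units.val_mul, Units.val_mul, Matrix.mul_apply, Matrix.mul_apply, Fin.sum_univ_two,
    Fin.sum_univ_two]
  fin_cases i <;> fin_cases j <;> simp [h01, h10, h00, mul_comm]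

theorem rayGen_zpow_comm465 {r : G K} (hr : IsRayGen r) (j : ℤ) (g : G K) :
    g * r ^ j = r ^ j * g :=
  ((Commute.zpow_right (rayGen_comm465 hr g) j)).eq

/-- `‖det r‖_𝔸 = 2`. -/
theorem detNorm_rayGen465 {r : G K} (hr : IsRayGen r) : H245.detNorm245 r = 2 := by
  obtain ⟨h01, h10, h00⟩ := rayGen_entries465 hr
  obtain ⟨t, ht0, ht2, ht⟩ := hr.2
  unfold H245.detNorm245
  rw [Matrix.det_fin_two, h01, h10, h00, mul_zero, sub_zero]
  unfold T1.adNorm
  have hfin : (∏ᶠ v : HeightOneSpectrum (𝓞 K),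
      ‖((r : Matrix (Fin 2) (Fin 2) (Adl K)) 1 1 * (r : Matrix (Fin 2) (Fin 2) (Adl K)) 1 1).2 v‖)
      = 1 := by
    have : ∀ v : HeightOneSpectrum (𝓞 K),
        ‖((r : Matrix (Fin 2) (Fin 2) (Adl K)) 1 1
          * (r : Matrix (Fin 2) (Fin 2) (Adl K)) 1 1).2 v‖ = 1 := by
      intro v
      have h1 : ((r : Matrix (Fin 2) (Fin 2) (Adl K)) 1 1
          * (r : Matrix (Fin 2) (Fin 2) (Adl K)) 1 1).2 v
          = ((r : Matrix (Fin 2) (Fin 2) (Adl K)) 1 1).2 v
            * ((r : Matrix (Fin 2) (Fin 2) (Adl K)) 1 1).2 v := rfl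
      rw [h1, rayGen_fin465 hr v 1 1, if_pos rfl, mul_one]
      exact norm_one
    simp only [this]
    exact finprod_one
  rw [hfin, mul_one]
  have hinf : ∀ w : InfinitePlace K,
      ‖((r : Matrix (Fin 2) (Fin 2) (Adl K)) 1 1
        * (r : Matrix (Fin 2) (Fin 2) (Adl K)) 1 1).1 w‖ = t ^ 2 := by
    intro w
    have h1 : ((r : Matrix (Fin 2) (Fin 2) (Adl K)) 1 1
        * (r : Matrix (Fin 2) (Fin 2) (Adl K)) 1 1).1 w
        = ((r : Matrix (Fin 2) (Fin 2) (Adl K)) 1 1).1 w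
          * ((r : Matrix (Fin 2) (Fin 2) (Adl K)) 1 1).1 w := rfl
    have h2 : ‖((r : Matrix (Fin 2) (Fin 2) (Adl K)) 1 1).1 w‖ = t := by
      have h3 := (InfinitePlace.Completion.isometry_extensionEmbedding w).norm_map_of_map_zero
        (map_zero _) (((r : Matrix (Fin 2) (Fin 2) (Adl K)) 1 1).1 w)
      rw [← h3, rayGen_inf465 ht w 1 1, if_pos rfl, Complex.norm_real, Real.norm_eq_abs,
        abs_of_pos ht0]
    rw [h1, norm_mul, h2, sq]
  simp only [hinf]
  rw [Finset.prod_pow_eq_pow_sum, InfinitePlace.sum_mult_eq, ← pow_mul]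
  exact ht2

theorem detNorm_one465 (hN : T1.AdNormC K) : H245.detNorm245 (1 : G K) = 1 := by
  have h3 : H245.detNorm245 ((1 : G K) * (1 : G K))
      = H245.detNorm245 (1 : G K) * H245.detNorm245 (1 : G K) :=
    H245.detNorm245_mul hN _ _
  rw [mul_one] at h3
  have hpos := H245.detNorm245_pos hN (1 : G K)
  have h4 : H245.detNorm245 (1 : G K) * 1
      = H245.detNorm245 (1 : G K) * H245.detNorm245 (1 : G K) := by
    rw [mul_one]; exact h3
  exact (mul_left_cancel₀ hpos.ne' h4).symm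

/-- `‖det‖_𝔸` of the inverse. -/
theorem detNorm_inv465 (hN : T1.AdNormC K) (g : G K) :
    H245.detNorm245 g⁻¹ = (H245.detNorm245 g)⁻¹ := by
  have h1 : H245.detNorm245 (g⁻¹ * g) = H245.detNorm245 g⁻¹ * H245.detNorm245 g :=
    H245.detNorm245_mul hN _ _
  rw [inv_mul_cancel, detNorm_one465 hN] at h1
  exact eq_inv_of_mul_eq_one_left h1.symm

/-- `‖det‖_𝔸` as a monoid homomorphism. -/
def detNormHom465 (hN : T1.AdNormC K) : G K →* ℝ where
  toFun := H245.detNorm245
  map_one' := detNorm_one465 hN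
  map_mul' := H245.detNorm245_mul hN

/-- `‖det r^j‖_𝔸 = 2^j`. -/
theorem detNorm_rayGen_zpow465 (hN : T1.AdNormC K) {r : G K} (hr : IsRayGen r) (j : ℤ) :
    H245.detNorm245 (r ^ j) = (2 : ℝ) ^ j := by
  have h := map_zpow' (detNormHom465 hN) (fun g => detNorm_inv465 hN g) r j
  have h2 : detNormHom465 hN r = 2 := detNorm_rayGen465 hr
  rw [h2] at h
  exact h

/-- The translates `slab · r^j` cover: every `g` has `g r^j` in the slab for some `j`, and `j` is
controlled by `‖det g‖_𝔸`. -/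
theorem exists_zpow_mem_slab465 (hN : T1.AdNormC K) {r : G K} (hr : IsRayGen r) (g : G K)
    (n : ℤ) (J : ℕ) (h1 : (2 : ℝ) ^ n ≤ H245.detNorm245 g)
    (h2 : H245.detNorm245 g < (2 : ℝ) ^ (n + 1 + J)) :
    ∃ j ∈ Finset.Icc (-n - J) (-n), g * r ^ j ∈ T1.slab K := by
  have hpos := H245.detNorm245_pos hN g
  obtain ⟨m, hm1, hm2⟩ := exists_mem_Ico_zpow hpos (one_lt_two : (1 : ℝ) < 2)
  have hnm : n ≤ m := by
    have : (2 : ℝ) ^ n < (2 : ℝ) ^ (m + 1) := lt_of_le_of_lt h1 hm2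
    have := (zpow_lt_zpow_iff_right₀ (one_lt_two : (1 : ℝ) < 2)).1 this
    omega
  have hmn : m ≤ n + J := by
    have : (2 : ℝ) ^ m < (2 : ℝ) ^ (n + 1 + J) := lt_of_le_of_lt hm1 h2
    have := (zpow_lt_zpow_iff_right₀ (one_lt_two : (1 : ℝ) < 2)).1 this
    omega
  refine ⟨-m, Finset.mem_Icc.2 ⟨by omega, by omega⟩, ?_⟩
  have hd : H245.detNorm245 (g * r ^ (-m)) = H245.detNorm245 g * ((2 : ℝ) ^ m)⁻¹ := by
    rw [H245.detNorm245_mul hN, detNorm_rayGen_zpow465 hN hr, zpow_neg]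
  have h2m : (0 : ℝ) < (2 : ℝ) ^ m := zpow_pos (by norm_num) m
  show 1 ≤ H245.detNorm245 (g * r ^ (-m)) ∧ H245.detNorm245 (g * r ^ (-m)) < 2
  rw [hd]
  constructor
  · rw [le_mul_inv_iff₀ h2m, one_mul]
    exact hm1
  · rw [mul_inv_lt_iff₀ h2m]
    have : (2 : ℝ) ^ (m + 1) = 2 * (2 : ℝ) ^ m := by
      rw [zpow_add₀ (by norm_num : (2 : ℝ) ≠ 0), zpow_one, mul_comm]
    rw [← this]
    exact hm2

end Fermat.Agent.LT.T2.H465

end
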