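import Mathlib

/-!
# Row LT, tower T2, leaf T2.23c (`LeafIntCore`), part 1: the tiling inequality (helper465)

OFF-MAIN.  Mathlib only.  `lintegral_tile_le465`: if a measurable set `A` of a group is covered by
the sets `{g : a γ j * g ∈ D}` (`j` in a finite set `S`, `γ` in a countable set), the function
`φ ≥ 0` is invariant under the left translations by the `a γ j`, the measure is left invariant and
at most `N` of the sets `a γ j · A` (`j` fixed) contain a given point, then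
`∫_A φ ≤ #S · N · ∫_D φ`.
-/

set_option autoImplicit false

open MeasureTheory
open scoped ENNReal

noncomputable section

namespace Fermat.Agent.LT.T2.H465

/-- A sum of indicators with at most `N` non-zero terms. -/
theorem tsum_ite_le465 {Γ : Type*} (P : Γ → Prop) [DecidablePred P] (c N : ℝ≥0∞)
    (h : ∀ T : Finset Γ, (∀ γ ∈ T, P γ) → (T.card : ℝ≥0∞) ≤ N) :
    ∑' γ, (if P γ then c else 0) ≤ N * c := by
  rw [ENNReal.tsum_eq_iSup_sum]
  refine iSup_le fun T => ?_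
  rw [← Finset.sum_filter, Finset.sum_const, nsmul_eq_mul]
  gcongr
  exact h _ (fun γ hγ => (Finset.mem_filter.1 hγ).2)

/-- **The tiling inequality.** -/
theorem lintegral_tile_le465 {G : Type*} [Group G] [MeasurableSpace G] [MeasurableMul G]
    {Γ : Type*} [Countable Γ] (μ : Measure G) [μ.IsMulLeftInvariant]
    (a : Γ → ℤ → G) (D A : Set G) (hD : MeasurableSet D) (hA : MeasurableSet A) (S : Finset ℤ)
    (hcov : ∀ g ∈ A, ∃ j ∈ S, ∃ γ, a γ j * g ∈ D)
    (φ : G → ℝ≥0∞) (hφ : Measurable φ) (hinv : ∀ γ j g, φ (a γ j * g) = φ g)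
    (N : ℝ≥0∞)
    (hcount : ∀ j ∈ S, ∀ g' : G, ∀ T : Finset Γ,
      (∀ γ ∈ T, (a γ j)⁻¹ * g' ∈ A) → (T.card : ℝ≥0∞) ≤ N) :
    ∫⁻ g in A, φ g ∂μ ≤ S.card * (N * ∫⁻ g in D, φ g ∂μ) := by
  classical
  -- the pieces
  set P : ℤ → Γ → Set G := fun j γ => A ∩ (fun g => a γ j * g) ⁻¹' D with hP
  have hPm : ∀ j γ, MeasurableSet (P j γ) := fun j γ =>
    hA.inter ((measurable_const_mul (a γ j)) hD)
  have hsub : A ⊆ ⋃ p : S × Γ, P p.1 p.2 := by
    intro g hg
    obtain ⟨j, hj, γ, hγ⟩ := hcov g hg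
    exact Set.mem_iUnion.2 ⟨(⟨j, hj⟩, γ), hg, hγ⟩
  -- one piece
  have hpiece : ∀ j γ, ∫⁻ g in P j γ, φ g ∂μ
      = ∫⁻ g' in D, (if (a γ j)⁻¹ * g' ∈ A then φ g' else 0) ∂μ := by
    intro j γ
    rw [← lintegral_indicator (hPm j γ), ← lintegral_indicator hD]
    rw [← lintegral_mul_left_eq_self (μ := μ)
      (fun g' => D.indicator (fun g' => if (a γ j)⁻¹ * g' ∈ A then φ g' else 0) g') (a γ j)]
    refine lintegral_congr fun g => ?_
    by_cases h1 : g ∈ A
    · by_cases h2 : a γ j * g ∈ D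
      · have hmem : g ∈ P j γ := ⟨h1, h2⟩
        rw [Set.indicator_of_mem hmem, Set.indicator_of_mem h2, inv_mul_cancel_left, if_pos h1,
          hinv]
      · have hmem : g ∉ P j γ := fun h => h2 h.2
        rw [Set.indicator_of_notMem hmem, Set.indicator_of_notMem h2]
    · have hmem : g ∉ P j γ := fun h => h1 h.1
      rw [Set.indicator_of_notMem hmem]
      by_cases h2 : a γ j * g ∈ D
      · rw [Set.indicator_of_mem h2, inv_mul_cancel_left, if_neg h1]
      · rw [Set.indicator_of_notMem h2]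
  -- the sum over `γ`
  have hsum : ∀ j ∈ S, ∑' γ, ∫⁻ g in P j γ, φ g ∂μ ≤ N * ∫⁻ g in D, φ g ∂μ := by
    intro j hj
    simp only [hpiece]
    rw [← lintegral_tsum]
    · rw [← lintegral_const_mul N hφ]
      refine lintegral_mono fun g' => ?_
      exact tsum_ite_le465 (fun γ => (a γ j)⁻¹ * g' ∈ A) (φ g') N (hcount j hj g')
    · intro γ
      refine Measurable.aemeasurable ?_
      refine Measurable.ite ?_ hφ measurable_const
      exact (measurable_const_mul ((a γ j)⁻¹)) hA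
  calc ∫⁻ g in A, φ g ∂μ
      ≤ ∫⁻ g in ⋃ p : S × Γ, P p.1 p.2, φ g ∂μ := lintegral_mono_set hsub
    _ ≤ ∑' p : S × Γ, ∫⁻ g in P p.1 p.2, φ g ∂μ := lintegral_iUnion_le _ _
    _ = ∑' j : S, ∑' γ : Γ, ∫⁻ g in P j γ, φ g ∂μ :=
        ENNReal.tsum_prod (f := fun (j : S) (γ : Γ) => ∫⁻ g in P j γ, φ g ∂μ)
    _ ≤ ∑' _ : S, N * ∫⁻ g in D, φ g ∂μ :=
        ENNReal.tsum_le_tsum fun j => hsum j.1 j.2
    _ = S.card * (N * ∫⁻ g in D, φ g ∂μ) := by
        rw [tsum_fintype, Finset.sum_const, Finset.card_univ, Fintype.card_coe, nsmul_eq_mul]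

end Fermat.Agent.LT.T2.H465

end
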