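import Mathlib
import Fermat.Agent.LT.T2.H465.GPSCoreCut
import Fermat.Agent.LT.T2.H465.Tile
import Fermat.Agent.LT.T2.H465.Ray
import Fermat.Agent.LT.T2.H465.CS

/-!
# Row LT, tower T2, leaf T2.23c = `LeafIntCore` (helper465): THE COUNT gives the local `L²` bound

OFF-MAIN.  `leafIntCore465 K : LeafIntCore K`, i.e.
`T1.T1Out K → H767.CountC K → LocalL2Core K`: for a compact `Ω ⊆ GL₂(𝔸_K)` there are `C`, `c > 0`
with `∫_Ω |ψ(x h)| dμ(h) ≤ C · H(x) · ‖ψ‖₂` on `{H ≥ c}`, for every continuous bounded `ψ`, left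
invariant under `GL₂(K)` and invariant under the ray generator `r` of the frame.

Proof.  `∫_Ω |ψ(x h)|² dμ(h) = ∫_{xΩ} |ψ|² dμ` (left invariance).  `‖det‖_𝔸` takes its values in
`[a, b]` on `Ω`, so `xΩ ⊆ ⋃_{j ∈ S} slab · r^{-j}` with `#S = J + 1`, `b ≤ a 2^J`.  By
`Frame.strict` the sets `{g : γ r^j g ∈ D}` cover `xΩ` (`r` is central); `|ψ|²` is invariant
under `γ r^j`; the number of `γ` with `(γ r^j)⁻¹ g' ∈ xΩ` is at most the number of `δ ∈ GL₂(K)`
with `δ x ∈ x Ω Ω⁻¹`, which is `≤ B t` by THE COUNT.  The tiling inequality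
(`lintegral_tile_le465`) gives `∫_{xΩ} |ψ|² ≤ (J+1) B t ‖ψ‖₂²` and Cauchy--Schwarz
(`integral_norm_le_sqrt465`) the claim, with `√t ≤ t` for `t ≥ 1`.
-/

set_option autoImplicit false
set_option linter.style.haveILetI false

open IsDedekindDomain NumberField MeasureTheory
open Fermat.Agent.LT.H556.A0
open scoped ENNReal Pointwise

noncomputable section

namespace Fermat.Agent.LT.T2.H465

open Fermat.Agent.LT.T2

attribute [local instance] Fermat.Agent.LT.T2.borelG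

variable {K : Type} [Field K] [NumberField K]

/-- Invariance under the powers of the ray generator. -/
theorem ray_zpow_inv465 {ψ : G K → ℂ} {r : G K} (h : ∀ g : G K, ψ (g * r) = ψ g) (j : ℤ) :
    ∀ g : G K, ψ (g * r ^ j) = ψ g := by
  induction j using Int.induction_on with
  | zero => intro g; simp
  | succ n ih => intro g; rw [zpow_add_one, ← mul_assoc, h, ih]
  | pred n ih =>
    intro g
    rw [zpow_sub_one, ← mul_assoc]
    have h1 := h (g * r ^ (-(n : ℤ)) * r⁻¹)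
    rw [inv_mul_cancel_right] at h1
    rw [← h1, ih]

/-- The square of the `L²`-norm as an integral of `‖ψ‖²`. -/
theorem nsq_eq465 (F : Frame K) (ψ : G K → ℂ) :
    nsq F ψ = ∫ g in F.D, ‖ψ g‖ ^ 2 ∂F.μ := by
  have hreal : ∀ g, ψ g * (starRingEnd ℂ) (ψ g) = (((‖ψ g‖ ^ 2 : ℝ)) : ℂ) := by
    intro g
    rw [Complex.mul_conj, Complex.normSq_eq_norm_sq]
  have h1 : pair F ψ ψ = ((∫ g in F.D, ‖ψ g‖ ^ 2 ∂F.μ : ℝ) : ℂ) := by
    unfold pair
    simp only [hreal]
    exact integral_ofReal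
  unfold nsq
  rw [h1, Complex.ofReal_re]

theorem nsq_nonneg465 (F : Frame K) (ψ : G K → ℂ) : 0 ≤ nsq F ψ := by
  rw [nsq_eq465]
  exact integral_nonneg fun g => by positivity

/-- The square of the `L²`-norm as a lower Lebesgue integral. -/
theorem lintegral_sq_eq_nsq465 (F : Frame K) {ψ : G K → ℂ} (hc : Continuous ψ)
    (hb : ∃ C : ℝ, ∀ g : G K, ‖ψ g‖ ≤ C) :
    ∫⁻ g in F.D, ‖ψ g‖ₑ ^ (2 : ℝ) ∂F.μ = ENNReal.ofReal (nsq F ψ) := by
  haveI : BorelSpace (G K) := ⟨rfl⟩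
  obtain ⟨C, hC⟩ := hb
  have hint : IntegrableOn (fun g => ‖ψ g‖ ^ 2) F.D F.μ := by
    refine Measure.integrableOn_of_bounded (M := C * C) F.fin.ne
      ((hc.norm.pow 2).aestronglyMeasurable) (Filter.Eventually.of_forall fun g => ?_)
    rw [Real.norm_eq_abs, abs_of_nonneg (by positivity), sq]
    exact mul_le_mul (hC g) (hC g) (norm_nonneg _) ((norm_nonneg _).trans (hC g))
  rw [nsq_eq465, ofReal_integral_eq_lintegral_ofReal hint
    (Filter.Eventually.of_forall fun g => by positivity)]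
  refine lintegral_congr fun g => ?_
  rw [ENNReal.rpow_two, ENNReal.ofReal_pow (norm_nonneg _), ofReal_norm]

/-- Bounds for `‖det‖_𝔸` on a compact set. -/
theorem exists_detNorm_bounds465 (hN : T1.AdNormC K) {Ω : Set (G K)} (hΩ : IsCompact Ω) :
    ∃ (a : ℝ) (J : ℕ), 0 < a ∧
      ∀ ω ∈ Ω, a ≤ H245.detNorm245 ω ∧ H245.detNorm245 ω ≤ a * 2 ^ J := by
  have hcont := H245.continuous_detNorm245 hN
  by_cases hne : Ω.Nonempty
  · obtain ⟨ω₀, hω₀, hmin⟩ := hΩ.exists_isMinOn hne hcont.continuousOn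
    obtain ⟨ω₁, hω₁, hmax⟩ := hΩ.exists_isMaxOn hne hcont.continuousOn
    have ha : 0 < H245.detNorm245 ω₀ := H245.detNorm245_pos hN ω₀
    obtain ⟨J, hJ⟩ := pow_unbounded_of_one_lt (H245.detNorm245 ω₁ / H245.detNorm245 ω₀)
      (one_lt_two : (1 : ℝ) < 2)
    refine ⟨H245.detNorm245 ω₀, J, ha, fun ω hω => ⟨hmin hω, ?_⟩⟩
    have h1 : H245.detNorm245 ω ≤ H245.detNorm245 ω₁ := hmax hω
    have h2 : H245.detNorm245 ω₁ < H245.detNorm245 ω₀ * 2 ^ J := by
      rw [div_lt_iff₀ ha] at hJ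
      linarith
    linarith
  · refine ⟨1, 0, one_pos, fun ω hω => absurd ⟨ω, hω⟩ hne⟩

/-- **T2.23c**: THE COUNT gives the local `L²` bound (core form). -/
theorem leafIntCore465 (K : Type) [Field K] [NumberField K] : LeafIntCore K := by
  classical
  intro hT1 hCount R Ω hΩ
  obtain ⟨-, hlc, ht2, hsc⟩ := hT1.locComp
  haveI := hlc
  haveI := ht2
  haveI := hsc
  haveI : BorelSpace (G K) := ⟨rfl⟩
  haveI := R.F.haar
  haveI : Countable (GL (Fin 2) K) := H245.countable_GL245 K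
  have hN := hT1.adNorm
  have hray := R.ray
  obtain ⟨B, c₀, hc₀, hB⟩ := hCount (Ω * Ω⁻¹) (hΩ.mul hΩ.inv)
  obtain ⟨a, J, ha, hab⟩ := exists_detNorm_bounds465 hN hΩ
  have hμΩ : R.F.μ Ω ≠ ⊤ := hΩ.measure_lt_top.ne
  refine ⟨Real.sqrt (((J : ℝ) + 1) * max B 0) * Real.sqrt (R.F.μ Ω).toReal, max c₀ 1,
    lt_max_of_lt_left hc₀, ?_⟩
  intro ψ hψ hr x t hx ht
  have ht₀ : c₀ ≤ t := le_trans (le_max_left _ _) ht
  have ht₁ : 1 ≤ t := le_trans (le_max_right _ _) ht
  have htpos : 0 < t := lt_of_lt_of_le one_pos ht₁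
  -- the function and the set
  set φ : G K → ℝ≥0∞ := fun g => ‖ψ g‖ₑ ^ (2 : ℝ) with hφdef
  have hφm : Measurable φ := (hψ.cont.measurable.enorm).pow_const _
  set A : Set (G K) := (fun g => x⁻¹ * g) ⁻¹' Ω with hAdef
  have hAm : MeasurableSet A := (measurable_const_mul x⁻¹) hΩ.isClosed.measurableSet
  -- left invariance
  have hleft : ∫⁻ h in Ω, ‖ψ (x * h)‖ₑ ^ (2 : ℝ) ∂(R.F.μ) = ∫⁻ g in A, φ g ∂(R.F.μ) := by
    rw [← lintegral_indicator hΩ.isClosed.measurableSet, ← lintegral_indicator hAm,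
      ← lintegral_mul_left_eq_self (μ := R.F.μ) (fun g => A.indicator φ g) x]
    refine lintegral_congr fun h => ?_
    by_cases hh : h ∈ Ω
    · have hxh : x * h ∈ A := by
        show x⁻¹ * (x * h) ∈ Ω
        rwa [inv_mul_cancel_left]
      rw [Set.indicator_of_mem hh, Set.indicator_of_mem hxh]
    · have hxh : x * h ∉ A := by
        intro h'
        apply hh
        have : x⁻¹ * (x * h) ∈ Ω := h'
        rwa [inv_mul_cancel_left] at this
      rw [Set.indicator_of_notMem hh, Set.indicator_of_notMem hxh]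
  -- the range of `j`
  have hy := H245.detNorm245_pos hN x
  obtain ⟨n, hn1, hn2⟩ := exists_mem_Ico_zpow (mul_pos hy ha) (one_lt_two : (1 : ℝ) < 2)
  set S : Finset ℤ := Finset.Icc (-n - J) (-n) with hSdef
  have hScard : (S.card : ℝ≥0∞) = ((J : ℝ≥0∞) + 1) := by
    rw [hSdef, Int.card_Icc]
    have : (-n + 1 - (-n - (J : ℤ))).toNat = J + 1 := by omega
    rw [this]
    push_cast
    rfl
  -- the tiling
  have hcentral := rayGen_zpow_comm465 hray
  have htile := lintegral_tile_le465 (μ := R.F.μ)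
    (fun (γ : GL (Fin 2) K) (j : ℤ) => T1.ratG K γ * R.r ^ j) R.F.D A R.F.meas hAm S
    (by
      intro g hg
      have hω : x⁻¹ * g ∈ Ω := hg
      obtain ⟨hω1, hω2⟩ := hab _ hω
      have hdet : H245.detNorm245 g = H245.detNorm245 x * H245.detNorm245 (x⁻¹ * g) := by
        rw [← H245.detNorm245_mul hN, mul_inv_cancel_left]
      have h1 : (2 : ℝ) ^ n ≤ H245.detNorm245 g := by
        rw [hdet]
        exact hn1.trans (mul_le_mul_of_nonneg_left hω1 hy.le)
      have h2 : H245.detNorm245 g < (2 : ℝ) ^ (n + 1 + J) := by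
        rw [hdet]
        calc H245.detNorm245 x * H245.detNorm245 (x⁻¹ * g)
            ≤ H245.detNorm245 x * (a * 2 ^ J) := mul_le_mul_of_nonneg_left hω2 hy.le
          _ = (H245.detNorm245 x * a) * 2 ^ J := by ring
          _ < (2 : ℝ) ^ (n + 1) * 2 ^ J :=
              mul_lt_mul_of_pos_right hn2 (by positivity)
          _ = (2 : ℝ) ^ (n + 1 + J) := by
              rw [zpow_add₀ (by norm_num : (2 : ℝ) ≠ 0) (n + 1) J, zpow_natCast]
      obtain ⟨j, hj, hslab⟩ := exists_zpow_mem_slab465 hN hray g n J h1 h2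
      obtain ⟨γ, hγ, -⟩ := R.F.strict _ hslab
      refine ⟨j, hj, γ, ?_⟩
      show T1.ratG K γ * R.r ^ j * g ∈ R.F.D
      rw [mul_assoc, ← hcentral j g]
      exact hγ)
    φ hφm
    (by
      intro γ j g
      show ‖ψ (T1.ratG K γ * R.r ^ j * g)‖ₑ ^ (2 : ℝ) = ‖ψ g‖ₑ ^ (2 : ℝ)
      have h1 : ψ (T1.ratG K γ * R.r ^ j * g) = ψ g := by
        rw [mul_assoc]
        have h2 := hψ.left_inv γ (R.r ^ j * g)
        rw [show T1.ratG K γ * (R.r ^ j * g)
          = Matrix.GeneralLinearGroup.map (algebraMap K (Adl K)) γ * (R.r ^ j * g) from rfl, h2,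
          ← hcentral j g]
        exact ray_zpow_inv465 hr j g
      rw [h1])
    (ENNReal.ofReal (max B 0 * t))
    (by
      intro j _ g' T hT
      rcases T.eq_empty_or_nonempty with hT0 | ⟨γ₁, hγ₁⟩
      · rw [hT0]
        simp
      · -- translate by `γ₁⁻¹`
        have hinj : Function.Injective (fun γ : GL (Fin 2) K => γ₁⁻¹ * γ) :=
          mul_right_injective _
        have hcard : (T.image (fun γ : GL (Fin 2) K => γ₁⁻¹ * γ)).card = T.card :=
          Finset.card_image_of_injective _ hinj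
        have hcount := hB x t hx ht₀ (T.image (fun γ : GL (Fin 2) K => γ₁⁻¹ * γ)) (by
          intro δ hδ
          obtain ⟨γ, hγ, rfl⟩ := Finset.mem_image.1 hδ
          have h1 : x⁻¹ * ((T1.ratG K γ₁ * R.r ^ j)⁻¹ * g') ∈ Ω := hT γ₁ hγ₁
          have h2 : x⁻¹ * ((T1.ratG K γ * R.r ^ j)⁻¹ * g') ∈ Ω := hT γ hγ
          refine ⟨(x⁻¹ * ((T1.ratG K γ₁ * R.r ^ j)⁻¹ * g'))
            * (x⁻¹ * ((T1.ratG K γ * R.r ^ j)⁻¹ * g'))⁻¹,
            Set.mul_mem_mul h1 (Set.inv_mem_inv.2 h2), ?_⟩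
          have h3 : (x⁻¹ * ((T1.ratG K γ₁ * R.r ^ j)⁻¹ * g'))
              * (x⁻¹ * ((T1.ratG K γ * R.r ^ j)⁻¹ * g'))⁻¹
              = x⁻¹ * ((R.r ^ j)⁻¹ * ((T1.ratG K γ₁)⁻¹ * T1.ratG K γ) * R.r ^ j) * x := by
            group
          rw [h3]
          have h4 : (R.r ^ j)⁻¹ * ((T1.ratG K γ₁)⁻¹ * T1.ratG K γ) * R.r ^ j
              = (T1.ratG K γ₁)⁻¹ * T1.ratG K γ := by
            rw [mul_assoc, hcentral j ((T1.ratG K γ₁)⁻¹ * T1.ratG K γ), inv_mul_cancel_left]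
          rw [h4, map_mul, map_inv]
          group)
        rw [hcard] at hcount
        have h5 : (T.card : ℝ) ≤ max B 0 * t :=
          hcount.trans (mul_le_mul_of_nonneg_right (le_max_left _ _) htpos.le)
        calc (T.card : ℝ≥0∞) = ENNReal.ofReal (T.card : ℝ) := by
              rw [ENNReal.ofReal_natCast]
          _ ≤ ENNReal.ofReal (max B 0 * t) := ENNReal.ofReal_le_ofReal h5)
  -- the bound for the square integral
  have hQ : ∫⁻ h in Ω, ‖ψ (x * h)‖ₑ ^ (2 : ℝ) ∂(R.F.μ)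
      ≤ ENNReal.ofReal ((((J : ℝ) + 1) * max B 0) * t * nsq R.F ψ) := by
    rw [hleft]
    refine htile.trans ?_
    rw [hScard, lintegral_sq_eq_nsq465 R.F hψ.cont hψ.bdd]
    have hJ1 : ((J : ℝ≥0∞) + 1) = ENNReal.ofReal ((J : ℝ) + 1) := by
      rw [ENNReal.ofReal_add (by positivity) zero_le_one, ENNReal.ofReal_natCast,
        ENNReal.ofReal_one]
    rw [hJ1, ← ENNReal.ofReal_mul (by positivity), ← ENNReal.ofReal_mul (by positivity)]
    refine le_of_eq ?_
    congr 1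
    ring
  have hnsq : 0 ≤ nsq R.F ψ := nsq_nonneg465 R.F ψ
  have hQ0 : 0 ≤ (((J : ℝ) + 1) * max B 0) * t * nsq R.F ψ := by
    have : 0 ≤ max B 0 := le_max_right _ _
    positivity
  have hcs := integral_norm_le_sqrt465 R.F.μ Ω hμΩ
    (f := fun h => ψ (x * h))
    ((hψ.cont.comp (continuous_const.mul continuous_id)).aestronglyMeasurable) _ hQ0 hQ
  refine hcs.trans ?_
  -- `√(M t nsq) √μ(Ω) ≤ √M √μ(Ω) t √nsq`
  have hM0 : 0 ≤ ((J : ℝ) + 1) * max B 0 := by
    have : 0 ≤ max B 0 := le_max_right _ _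
    positivity
  have hsq : Real.sqrt ((((J : ℝ) + 1) * max B 0) * t * nsq R.F ψ)
      = Real.sqrt (((J : ℝ) + 1) * max B 0) * Real.sqrt t * Real.sqrt (nsq R.F ψ) := by
    rw [Real.sqrt_mul (mul_nonneg hM0 htpos.le), Real.sqrt_mul hM0]
  have hsqt : Real.sqrt t ≤ t := by
    rw [Real.sqrt_le_left htpos.le]
    nlinarith
  rw [hsq]
  have h6 : 0 ≤ Real.sqrt (((J : ℝ) + 1) * max B 0) := Real.sqrt_nonneg _
  have h7 : 0 ≤ Real.sqrt (R.F.μ Ω).toReal := Real.sqrt_nonneg _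
  have h8 : 0 ≤ Real.sqrt (nsq R.F ψ) := Real.sqrt_nonneg _
  calc Real.sqrt (((J : ℝ) + 1) * max B 0) * Real.sqrt t * Real.sqrt (nsq R.F ψ)
        * Real.sqrt (R.F.μ Ω).toReal
      = (Real.sqrt (((J : ℝ) + 1) * max B 0) * Real.sqrt (R.F.μ Ω).toReal
          * Real.sqrt (nsq R.F ψ)) * Real.sqrt t := by ring
    _ ≤ (Real.sqrt (((J : ℝ) + 1) * max B 0) * Real.sqrt (R.F.μ Ω).toReal
          * Real.sqrt (nsq R.F ψ)) * t :=
        mul_le_mul_of_nonneg_left hsqt (by positivity)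
    _ = Real.sqrt (((J : ℝ) + 1) * max B 0) * Real.sqrt (R.F.μ Ω).toReal * t
          * Real.sqrt (nsq R.F ψ) := by ring

end Fermat.Agent.LT.T2.H465

end
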