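import Mathlib
import Fermat.Agent.LT.T2.H465.LeafInt

/-!
# Row LT, tower T2, leaf T2.23c = `LeafIntCore`: CLOSED (helper465), and its consequences

OFF-MAIN.  `leafIntCore465 K : LeafIntCore K` is unconditional.  Consequences:

* `leafInt767_of_leafT14_465 : T2.LeafT14 K → H767.LeafInt K` (T2.03c.2, class of A0);
* `leafT03_of_three465 : LeafFDCore K → LeafSoft1Core K → H767.LeafCount K → T2.LeafT03 K`
  (T2.23 from the three remaining leaves);
* `leaf03_of_three465` (the same for T2.03, with `T2.LeafT14`).
-/

set_option autoImplicit false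

open IsDedekindDomain NumberField MeasureTheory
open Fermat.Agent.LT.H556.A0

noncomputable section

namespace Fermat.Agent.LT.T2.H465

open Fermat.Agent.LT.T2

variable {K : Type} [Field K] [NumberField K]

/-- Type check against the frozen Prop of the cut. -/
example (K : Type) [Field K] [NumberField K] : Fermat.Agent.LT.T2.H465.LeafIntCore K :=
  leafIntCore465 K

/-- T2.03c.2 (`H767.LeafInt`, class of A0) from `T2.LeafT14`. -/
theorem leafInt767_of_leafT14_465 (h14 : LeafT14 K) : H767.LeafInt K :=
  fun hT1 hC _ _ => localL2_of_core h14 (leafIntCore465 K hT1 hC)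

/-- T2.23 from the three remaining leaves. -/
theorem leafT03_of_three465 (hFD : LeafFDCore K) (hS : LeafSoft1Core K)
    (hCount : H767.LeafCount K) : LeafT03 K :=
  leafT03_of_core hFD hS hCount (leafIntCore465 K)

/-- T2.03 from the three remaining leaves and `T2.LeafT14`. -/
theorem leaf03_of_three465 (h14 : LeafT14 K) (hFD : LeafFDCore K) (hS : LeafSoft1Core K)
    (hCount : H767.LeafCount K) : Leaf03 K :=
  leaf03_of_core h14 hFD hS hCount (leafIntCore465 K)

end Fermat.Agent.LT.T2.H465

end
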