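import Mathlib
import Fermat.Agent.LT.T2.H437.USTop
import Fermat.Agent.LT.T2.H437.USClosed
import Fermat.Agent.LT.T2.H511.FDAt
import Fermat.Agent.LT.T2.H511.FDAtPartial
import Fermat.Agent.LT.T2.H465.GPSCoreCut

/-!
# Row LT, tower T2, leaf T2.23a = `LeafFDCore` (helper465): CLOSED

OFF-MAIN.  `leafFDCore465 K : LeafFDCore K` (= `H386.FDBound` for the core class `IsTestCore`:
no condition at `K_∞` on the test function), unconditional.

* `unifSmoothAt465`: the proof of `H437.unifSmooth_of_leaves437` (helper437, `USTop.lean`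
  sha256 134791e2) PER FUNCTION: that proof uses of `T2.IsTestFn 𝔫 f` exactly the three fields
  `cpt`, `smooth`, `level_right`; the text of the proof is the text of helper437, with these three
  hypotheses in place of the fields.
* `fdBoundAt_of_us511` (helper511, `FDAtPartial.lean`): `f` left `U(𝔫)`-invariant and
  `UnifSmoothAt511 f` give `FDBoundAt511 f`.
* inputs, byte-identical copies: `H8.fdCalcC437_h8`, `H187.levelNhdsC187`, `H793.cptC793`,
  `H729.contrC729`, `H988.conjAlgC988`.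
-/

set_option autoImplicit false
set_option linter.unusedSectionVars false

open IsDedekindDomain NumberField
open Fermat.Agent.LT.H556.A0 Fermat.Agent.LT.T1.H724 Fermat.Agent.LT.T2.H724
open Fermat.Agent.LT.T2.H386 Fermat.Agent.LT.T2.H511 Fermat.Agent.LT.T2
open Fermat.Agent.LT.T2.H437

noncomputable section

namespace Fermat.Agent.LT.T2.H465

variable {K : Type} [Field K] [NumberField K]

/-- **Uniform smoothness PER FUNCTION** (proof of helper437, `H437.unifSmooth_of_leaves437`):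
for a function with compact support, smooth at infinity and right invariant under `U(𝔫)`. -/
theorem unifSmoothAt_of_leaves465 (hFD : FDCalcC437) (hLN : LevelNhdsC437 K) (hCpt : CptC K)
    (𝔫 : Ideal (𝓞 K)) (h𝔫 : 𝔫 ≠ ⊥) (f : G K → ℂ) (hcpt : HasCompactSupport f)
    (hsmooth : IsSmoothAtInf f)
    (hlr : ∀ u : G K, InLevelGroup 𝔫 u → ∀ g : G K, f (g * u) = f g) :
    UnifSmoothAt511 f := by
  intro Ω hΩ R M
  obtain ⟨hC1, -, hC3, -⟩ := hCpt
  set r : ℝ := max 1 R with hr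
  have hr1 : (1 : ℝ) ≤ r := le_max_left _ _
  have hrR : R ≤ r := le_max_right _ _
  have hr0 : (0 : ℝ) ≤ r := zero_le_one.trans hr1
  -- the box and the compact set `W⁻¹ supp f`
  have hBox : IsCompact (box511 ({0} : Set (Adl K)) (M * r) 1) :=
    hC3 {0} isCompact_singleton (M * r) 1
  have hW : IsCompact (conjSet511 Ω (box511 ({0} : Set (Adl K)) (M * r) 1)) :=
    hC1 Ω hΩ _ hBox
  have hH₀ : IsCompact ((fun p : G K × G K => p.1⁻¹ * p.2) ''
      (conjSet511 Ω (box511 ({0} : Set (Adl K)) (M * r) 1) ×ˢ tsupport f)) :=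
    (hW.prod hcpt).image (continuous_fst.inv.mul continuous_snd)
  -- the coverings
  obtain ⟨TΩ, hTΩ⟩ := exists_cover437 hΩ (isOpen_nbInf437.mem_nhds one_mem_nbInf437)
  obtain ⟨TH, hTH⟩ := exists_cover437 hH₀
    (Filter.inter_mem (isOpen_nbInf437.mem_nhds one_mem_nbInf437) (hLN 𝔫 h𝔫))
  -- the constants of the charts
  have hB : ∀ ω₀ h₀ : G K, ∃ B : ℝ, 0 ≤ B ∧ ∀ x : Fin (nPar437 K) → ℝ, ‖x‖ ≤ r →
      ∀ ε : ℝ, 0 ≤ ε → ε ≤ 1 → ∀ ts : List (Fin (nPar437 K) → ℝ), ts.length = M →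
        (∀ t ∈ ts, ‖t‖ ≤ ε * r) →
        ‖rdiff437 ts (fun q => f (h₀ * famQ437 ω₀ h₀ q)) x‖ ≤ B * ε ^ M :=
    fun ω₀ h₀ => hFD _ _ (contDiff_chartFn437 hsmooth ω₀ h₀) M r
  choose B hB0 hB using hB
  have hsum0 : 0 ≤ ∑ ω₀ ∈ TΩ, ∑ h₀ ∈ TH, B ω₀ h₀ :=
    Finset.sum_nonneg fun _ _ => Finset.sum_nonneg fun _ _ => hB0 _ _
  refine ⟨∑ ω₀ ∈ TΩ, ∑ h₀ ∈ TH, B ω₀ h₀, hsum0, ?_⟩
  intro ω hω h ε hε hε1 τs hlen hτ
  have hτ' : ∀ τ ∈ τs, τ.2 = 0 ∧ ∀ w : InfinitePlace K, ‖τ.1 w‖ ≤ ε * r := fun τ hτm =>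
    ⟨(hτ τ hτm).1, fun w => ((hτ τ hτm).2 w).trans (mul_le_mul_of_nonneg_left hrR hε.le)⟩
  by_cases hh : h ∈ (fun p : G K × G K => p.1⁻¹ * p.2) ''
      (conjSet511 Ω (box511 ({0} : Set (Adl K)) (M * r) 1) ×ˢ tsupport f)
  · obtain ⟨ω₀, hω₀T, hω₀⟩ := hTΩ ω hω
    obtain ⟨h₀, hh₀T, hh₀⟩ := hTH h hh
    obtain ⟨X, hX1, hXe⟩ := exists_chart437 hω₀
    obtain ⟨X', hX'1, hX'e⟩ := exists_chart437 hh₀.1
    have key : ∀ y : Adl K, y.2 = 0 →
        f (ω⁻¹ * unip386 y * ω * h)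
          = f (h₀ * famQ437 ω₀ h₀ (pack437 X (coordInf437 y) X')) := by
      intro y hy
      have e := fam_rel437 ω₀ h₀ ω (h₀⁻¹ * h) X X' y hy hXe hX'e
      rw [mul_inv_cancel_left] at e
      rw [e, hlr _ (inLevelGroup_finPart437 hh₀.2)]
      simp only [famQ437, parX_pack437, parT_pack437, parY_pack437]
    rw [bdiff_transfer437 X X' τs (fun y => f (ω⁻¹ * unip386 y * ω * h))
      (fun q => f (h₀ * famQ437 ω₀ h₀ q)) key (fun τ hτm => (hτ τ hτm).1) 0 rfl]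
    have hbase : ‖pack437 X (coordInf437 (0 : Adl K)) X'‖ ≤ r := by
      refine norm_pack_le437 _ _ _ hr0 (fun w i j b => (hX1 w i j b).trans hr1) ?_
        (fun w i j b => (hX'1 w i j b).trans hr1)
      intro w b
      rw [coordInf_zero437, abs_zero]
      exact hr0
    have hsteps : ∀ t ∈ τs.map stepQ437, ‖t‖ ≤ ε * r := by
      intro t ht
      obtain ⟨τ, hτm, rfl⟩ := List.mem_map.mp ht
      have h0 : (0 : ℝ) ≤ ε * r := mul_nonneg hε.le hr0
      refine norm_pack_le437 _ _ _ h0 (fun _ _ _ _ => by rw [abs_zero]; exact h0) ?_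
        (fun _ _ _ _ => by rw [abs_zero]; exact h0)
      intro w b
      exact (abs_coordInf_le437 τ w b).trans ((hτ' τ hτm).2 w)
    calc ‖rdiff437 (τs.map stepQ437) (fun q => f (h₀ * famQ437 ω₀ h₀ q))
          (pack437 X (coordInf437 (0 : Adl K)) X')‖
        ≤ B ω₀ h₀ * ε ^ M :=
          hB ω₀ h₀ _ hbase ε hε.le hε1 _ (by rw [List.length_map, hlen]) hsteps
      _ ≤ (∑ ω₀ ∈ TΩ, ∑ h₀ ∈ TH, B ω₀ h₀) * ε ^ M := by
        refine mul_le_mul_of_nonneg_right ?_ (pow_nonneg hε.le M)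
        calc B ω₀ h₀ ≤ ∑ h₀ ∈ TH, B ω₀ h₀ :=
              Finset.single_le_sum (f := fun h₀ => B ω₀ h₀) (fun _ _ => hB0 _ _) hh₀T
          _ ≤ ∑ ω₀ ∈ TΩ, ∑ h₀ ∈ TH, B ω₀ h₀ :=
              Finset.single_le_sum (f := fun ω₀ => ∑ h₀ ∈ TH, B ω₀ h₀)
                (fun _ _ => Finset.sum_nonneg fun _ _ => hB0 _ _) hω₀T
  · have hz : bdiff511 τs (fun y => f (ω⁻¹ * unip386 y * ω * h)) 0 = 0 := by
      refine bdiff_vanish437 (ε * r) (mul_nonneg hε.le hr0) τs _ 0 hτ' ?_ 0 rfl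
        (fun w => ?_)
      · intro y hy hyc
        by_contra hne
        apply hh
        refine ⟨(ω⁻¹ * unip386 y * ω, ω⁻¹ * unip386 y * ω * h),
          ⟨?_, subset_tsupport f hne⟩, inv_mul_cancel_left _ _⟩
        refine ⟨ω, hω, y, ⟨fun w => ?_, 0, rfl, ?_⟩, rfl⟩
        · calc ‖y.1 w‖ ≤ 0 + τs.length * (ε * r) := hyc w
            _ ≤ M * r := by
              rw [hlen, zero_add]
              exact mul_le_mul_of_nonneg_left (mul_le_of_le_one_left hr0 hε1)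
                (Nat.cast_nonneg M)
        · rw [hy, mul_zero]
          rfl
      · have e : (0 : Adl K).1 w = 0 := rfl
        rw [e, norm_zero]
    rw [hz, norm_zero]
    exact mul_nonneg hsum0 (pow_nonneg hε.le M)

/-- Uniform smoothness for the core class. -/
theorem unifSmoothAt465 (K : Type) [Field K] [NumberField K] (𝔫 : Ideal (𝓞 K)) (h𝔫 : 𝔫 ≠ ⊥)
    (f : G K → ℂ) (hf : IsTestCore 𝔫 f) : UnifSmoothAt511 f :=
  unifSmoothAt_of_leaves465 Fermat.Agent.LT.T2.H8.fdCalcC437_h8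
    (Fermat.Agent.LT.T2.H187.levelNhdsC187 K) (Fermat.Agent.LT.T2.H793.cptC793 K) 𝔫 h𝔫 f
    hf.cpt hf.smooth hf.level_right

/-- **T2.23a `LeafFDCore`**, unconditional. -/
theorem leafFDCore465 (K : Type) [Field K] [NumberField K] : LeafFDCore K :=
  fun hT1 𝔫 h𝔫 f hf =>
    fdBoundAt_of_us511 K hT1 𝔫 h𝔫 f hf.level_left (unifSmoothAt465 K 𝔫 h𝔫 f hf)

/-- Type check against the frozen Prop of the cut. -/
example (K : Type) [Field K] [NumberField K] : Fermat.Agent.LT.T2.H465.LeafFDCore K :=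
  leafFDCore465 K

end Fermat.Agent.LT.T2.H465

end
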