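import Mathlib
import Fermat.Agent.LT.T2.H465.USCore
import Fermat.Agent.LT.T2.H465.LeafIntClosed
import Fermat.Agent.LT.T2.H386.SoftCore465
import Fermat.Agent.LT.T2.H323.Count.Leaf

/-!
# Row LT, tower T2, leaf T2.23 = `T2.LeafT03` (`GPSCoreT`, THE ESTIMATE in the class of T5): CLOSED

OFF-MAIN (helper465, owner of registry row 1146).

    leafT03_465 K : T2.LeafT03 K        (VERBATIM vs `LT/T2/SpecTau.lean` 4d2b0fc2)
    gpsCoreT465 K hT1 𝔫 τ h𝔫 : T2.GPSCoreT K 𝔫 τ   (no condition on `τ`)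
    gpsCoreCore465 K hT1 𝔫 h𝔫 : GPSCoreCore K 𝔫     (the estimate for the core classes)

from the top `leafT03_of_core` (GPSCoreCut.lean, helper465) and the four closed leaves:

* T2.23a `leafFDCore465` (helper465; proof of helper437 per function + helper511 `FDAtPartial`,
  inputs helper8 `FDCalc`, helper187 `LevelNhds`, helper793 `Cpt`, helper729 `Contr`,
  helper988 `ConjAlg`),
* T2.23b `H386.leafSoft1Core_386` (helper386, `SoftCore465.lean` addbcdc8),
* T2.03c.1 `leafCount323` (helper323, `Count/Leaf.lean` 64271b2e),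
* T2.23c `leafIntCore465` (helper465).

All copies are byte-identical to the bytes of the owners.
-/

set_option autoImplicit false

open IsDedekindDomain NumberField
open Fermat.Agent.LT.H556.A0

namespace Fermat.Agent.LT.T2.H465

open Fermat.Agent.LT.T2

/-- **T2.23 `LeafT03`**: THE ESTIMATE in the class of T5, unconditional (VERBATIM). -/
theorem leafT03_465 (K : Type) [Field K] [NumberField K] : LeafT03 K :=
  leafT03_of_core (leafFDCore465 K) (Fermat.Agent.LT.T2.H386.leafSoft1Core_386 K)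
    (Fermat.Agent.LT.T2.H323.leafCount323 K) (leafIntCore465 K)

/-- Type check against the frozen Prop of `SpecTau.lean`. -/
example (K : Type) [Field K] [NumberField K] : Fermat.Agent.LT.T2.LeafT03 K := leafT03_465 K

/-- THE ESTIMATE for the core classes. -/
theorem gpsCoreCore465 (K : Type) [Field K] [NumberField K] (hT1 : T1.T1Out K)
    (𝔫 : Ideal (𝓞 K)) (h𝔫 : 𝔫 ≠ ⊥) : GPSCoreCore K 𝔫 :=
  gpsCoreCore_of_core
    (Fermat.Agent.LT.T2.H386.leafSoft1Core_386 K hT1 𝔫 h𝔫 (leafFDCore465 K hT1 𝔫 h𝔫))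
    (leafIntCore465 K hT1 (Fermat.Agent.LT.T2.H323.leafCount323 K hT1))

/-- THE ESTIMATE in the class of T5, for EVERY function `τ`. -/
theorem gpsCoreT465 (K : Type) [Field K] [NumberField K] (hT1 : T1.T1Out K)
    (𝔫 : Ideal (𝓞 K)) (τ : G K → ℂ) (h𝔫 : 𝔫 ≠ ⊥) : GPSCoreT K 𝔫 τ :=
  gpsCoreT_of_gpsCoreCore τ (gpsCoreCore465 K hT1 𝔫 h𝔫)

/-- T2.03 (`GPSCore`, class of A0) from `T2.LeafT14`. -/
theorem leaf03_of_leafT14_465 (K : Type) [Field K] [NumberField K] (h14 : LeafT14 K) :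
    Leaf03 K :=
  fun hT1 𝔫 h𝔫 => gpsCore_of_gpsCoreCore h14 (gpsCoreCore465 K hT1 𝔫 h𝔫)

end Fermat.Agent.LT.T2.H465
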